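/-
S26 / block M (architect helper99) : generators of sheaves of modules, basic facts.
Toolkit (FROZEN, no byte change): Fermat/Agent/S25/Mod/{LocHom,Basic,Gen,Defs,Cart,CartOpen,LocIso,UnitCart,Triv,Inv}.lean.
-/
import Fermat.Agent.S26.M.Units
import Fermat.Agent.S25.Mod.Cart
import Fermat.Agent.S25.Mod.CartOpen
import Fermat.Agent.S25.Mod.LocIso
import Fermat.Agent.S25.Mod.UnitCart
import Fermat.Agent.S25.Mod.Triv
import Fermat.Agent.S25.Mod.Inv

set_option autoImplicit false

universe u

open CategoryTheory AlgebraicGeometry AlgebraicGeometry.Scheme.Modules TopologicalSpace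
  Fermat.Agent.S25.Mod

noncomputable section

namespace Fermat.Agent.S26.M

variable {X Y : Scheme.{u}}

/-- `IsGen` only depends on the open up to equality. (`res_res`, `res_self`.) -/
theorem isGen_of_res {M : X.Modules} {W W' : X.Opens} (h : W' ≤ W) (h' : W ≤ W') {m : Γ(M, W)}
    (hm : IsGen M (res M h m)) : IsGen M m := by
  intro W'' h'' y
  have h1 := hm W'' (h''.trans h') y
  rw [res_res] at h1
  exact h1

/-- a unit multiple of a generator is a generator -/
theorem isGen_units_smul {M : X.Modules} {W : X.Opens} {m : Γ(M, W)} (hm : IsGen M m)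
    (a : Γ(X, W)ˣ) : IsGen M ((a : Γ(X, W)) • m) := by
  intro W' h y
  obtain ⟨b, hb, hu⟩ := hm W' h y
  have h1 : resO h ((a⁻¹ : Γ(X, W)ˣ) : Γ(X, W)) * resO h (a : Γ(X, W)) = 1 := by
    rw [← map_mul, Units.inv_mul, map_one]
  refine ⟨b * resO h ((a⁻¹ : Γ(X, W)ˣ) : Γ(X, W)), ?_, ?_⟩
  · show y = _
    rw [res_smul, smul_smul, mul_assoc, h1, mul_one]
    exact hb
  · intro c hc
    have hc' : y = c • res M h ((a : Γ(X, W)) • m) := hc
    rw [res_smul, smul_smul] at hc'
    rw [← hu _ hc', mul_assoc, mul_comm (resO h (a : Γ(X, W))), h1, mul_one]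

/-- a generator of the structure sheaf is a unit -/
theorem isUnit_of_isGen {W : X.Opens} {a : Γ(X, W)} (h : IsGen (OO X) (ofFn a)) : IsUnit a := by
  obtain ⟨b, hb, -⟩ := h W le_rfl (ofFn 1)
  have h1 := congrArg toFn hb
  rw [res_self, toFn_smul, toFn_ofFn, toFn_ofFn] at h1
  exact IsUnit.of_mul_eq_one b (by rw [mul_comm]; exact h1.symm)

/-- being a generator is local.  (existence: glue the coefficients (`function_glue`; they agree on
overlaps by `IsGen.smul_left_cancel`), `section_ext`; uniqueness: `function_ext`.) -/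
theorem isGen_of_cover {M : X.Modules} {W : X.Opens} (m : Γ(M, W)) {J : Type*} (V : J → X.Opens)
    (hle : ∀ j, V j ≤ W) (hcov : W ≤ ⨆ j, V j) (h : ∀ j, IsGen M (res M (hle j) m)) :
    IsGen M m := by
  intro W' hW' y
  have hcov' : W' ≤ ⨆ j, W' ⊓ V j := by
    rw [← inf_iSup_eq]
    exact le_inf le_rfl (hW'.trans hcov)
  have key : ∀ j, ∃! a : Γ(X, W' ⊓ V j), res M (inf_le_left : W' ⊓ V j ≤ W') y =
      a • res M ((inf_le_left : W' ⊓ V j ≤ W').trans hW') m := by
    intro j
    have h1 := h j (W' ⊓ V j) inf_le_right (res M inf_le_left y)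
    rw [res_res] at h1
    exact h1
  choose a ha hua using key
  obtain ⟨b, hb⟩ := function_glue (fun j => W' ⊓ V j) (fun j => inf_le_left) hcov' a (by
    intro i j
    have hg : IsGen M (res M ((inf_le_left : (W' ⊓ V i) ⊓ (W' ⊓ V j) ≤ W' ⊓ V i).trans
        ((inf_le_left : W' ⊓ V i ≤ W').trans hW')) m) := by
      have h2 := (h i).res ((inf_le_left : (W' ⊓ V i) ⊓ (W' ⊓ V j) ≤ W' ⊓ V i).trans inf_le_right)
      rw [res_res] at h2
      exact h2
    apply hg.smul_left_cancel
    have h3 := congrArg (res M (inf_le_left : (W' ⊓ V i) ⊓ (W' ⊓ V j) ≤ W' ⊓ V i)) (ha i)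
    have h4 := congrArg (res M (inf_le_right : (W' ⊓ V i) ⊓ (W' ⊓ V j) ≤ W' ⊓ V j)) (ha j)
    rw [res_smul, res_res, res_res] at h3 h4
    rw [← h3, ← h4])
  refine ⟨b, ?_, ?_⟩
  · apply section_ext M (fun j => W' ⊓ V j) (fun j => inf_le_left) hcov'
    intro j
    rw [res_smul, res_res, hb j]
    exact ha j
  · intro c hc
    apply function_ext (fun j => W' ⊓ V j) (fun j => inf_le_left) hcov'
    intro j
    rw [hb j]
    apply hua j
    have hc' : y = c • res M hW' m := hc
    rw [hc', res_smul, res_res]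

end Fermat.Agent.S26.M

end
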