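/-
S26 / block M (architect helper99) : generators and cartesian maps along open immersions (R3).
Toolkit (FROZEN, no byte change): Fermat/Agent/S25/Mod/{LocHom,Basic,Gen,Defs,Cart,CartOpen,LocIso,UnitCart,Triv,Inv}.lean.
-/
import Fermat.Agent.S26.M.Gen.Basic

set_option autoImplicit false

universe u

open CategoryTheory AlgebraicGeometry AlgebraicGeometry.Scheme.Modules TopologicalSpace
  Fermat.Agent.S25.Mod

noncomputable section

namespace Fermat.Agent.S26.M

variable {X Y : Scheme.{u}}

/-- naturality of `c` on sections, in terms of `toPre` and `res`. -/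
theorem Open_toPre_app_res (j : Y ⟶ X) {M : X.Modules} {N : Y.Modules}
    (c : M ⟶ (pushforward j).obj N) {W W' : X.Opens} (h : W' ≤ W) (m : Γ(M, W)) :
    toPre j N (c.app W' (res M h m)) =
      res N (j.preimage_mono h) (toPre j N (c.app W m)) := by
  rw [← toPre_res]
  congr 1
  exact ((LocHom.ofHom c ⊤).nat W W' le_top h m).symm

/-- semilinearity of `c` on sections. -/
theorem Open_toPre_app_smul (j : Y ⟶ X) {M : X.Modules} {N : Y.Modules}
    (c : M ⟶ (pushforward j).obj N) {W : X.Opens} (a : Γ(X, W)) (m : Γ(M, W)) :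
    toPre j N (c.app W (a • m)) = j.app W a • toPre j N (c.app W m) := by
  rw [← toPre_smul]
  congr 1
  exact Scheme.Modules.Hom.app_smul c a m

/-- the statement of `IsGen` over one open `W' ≤ W ≤ j.opensRange`. -/
theorem Open_key (j : Y ⟶ X) [IsOpenImmersion j] {M : X.Modules}
    {N : Y.Modules} (c : M ⟶ (pushforward j).obj N) (hc : IsCart j c) {W W' : X.Opens}
    (hW : W ≤ j.opensRange) (h : W' ≤ W) (m : Γ(M, W)) :
    (∀ y : Γ(M, W'), ∃! a : Γ(X, W'), y = a • res M h m) ↔
      ∀ y : Γ(N, j ⁻¹ᵁ W'), ∃! b : Γ(Y, j ⁻¹ᵁ W'),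
        y = b • res N (j.preimage_mono h) (toPre j N (c.app W m)) := by
  have hW' : W' ≤ j.opensRange := h.trans hW
  have i1 : IsIso (c.app W') := (isCart_iff_of_isOpenImmersion j c).1 hc W' hW'
  have i2 : IsIso (j.app W') := j.isIso_app W' hW'
  have b1 : Function.Bijective (fun y : Γ(M, W') => toPre j N (c.app W' y)) :=
    ConcreteCategory.bijective_of_isIso (c.app W')
  have b2 : Function.Bijective (j.app W') := ConcreteCategory.bijective_of_isIso (j.app W')
  rw [b1.surjective.forall]
  refine forall_congr' fun y => ?_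
  rw [b2.existsUnique_iff]
  refine existsUnique_congr fun a => ?_
  rw [← Open_toPre_app_res, ← Open_toPre_app_smul]
  exact b1.injective.eq_iff.symm

/-- **R3.** cartesian maps along open immersions preserve and reflect generators.
(`isCart_iff_of_isOpenImmersion`: `c.app W'` is bijective for `W' ≤ j.opensRange`; `j.app W'` is
bijective for such `W'`; `toPre_smul`, `toPre_res`; every open `V'` of `Y` is `j ⁻¹ᵁ (j ''ᵁ V')`.) -/
theorem isGen_iff_of_isOpenImmersion (j : Y ⟶ X) [IsOpenImmersion j] {M : X.Modules}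
    {N : Y.Modules} (c : M ⟶ (pushforward j).obj N) (hc : IsCart j c) {W : X.Opens}
    (hW : W ≤ j.opensRange) (m : Γ(M, W)) :
    IsGen M m ↔ IsGen N (toPre j N (c.app W m)) := by
  constructor
  · intro hm V' hV'
    obtain ⟨W', hW', rfl⟩ : ∃ W' : X.Opens, W' ≤ W ∧ V' = j ⁻¹ᵁ W' :=
      ⟨j ''ᵁ V', (j.image_mono hV').trans (j.image_preimage_le W), (j.preimage_image_eq V').symm⟩
    exact (Open_key j c hc hW hW' m).1 (hm W' hW')
  · intro hn W' hW'
    exact (Open_key j c hc hW hW' m).2 (hn (j ⁻¹ᵁ W') (j.preimage_mono hW'))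

end Fermat.Agent.S26.M

end
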