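/-
S26 / block M (architect helper99) : restriction of a cartesian map to an open (R2).
Toolkit (FROZEN, no byte change): Fermat/Agent/S25/Mod/{LocHom,Basic,Gen,Defs,Cart,CartOpen,LocIso,UnitCart,Triv,Inv}.lean.
-/
import Fermat.Agent.S26.M.Gen.Basic

set_option autoImplicit false

universe u

open CategoryTheory AlgebraicGeometry AlgebraicGeometry.Scheme.Modules TopologicalSpace
  Fermat.Agent.S25.Mod

noncomputable section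

namespace Fermat.Agent.S26.M

variable {X Y : Scheme.{u}}

/-- **R2.** restriction of a cartesian map to an open: with `V := φ ⁻¹ᵁ W`, `M_W := W.ι^* M`,
`N_V := V.ι^* N`, `c_M := coadj W.ι (𝟙 _)`, `c_N := coadj V.ι (𝟙 _)` there is a cartesian
`a_W : M_W ⟶ (φ ∣_ W)_* N_V` with `comp' c_M a_W = comp' a c_N`.
(`IsCart.existsUnique_lift (morphismRestrict_ι φ W)` for `isCart_coadj`, `IsCart.comp`,
`IsCart.of_comp`.) -/
theorem exists_restrict_cart (φ : Y ⟶ X) {M : X.Modules} {N : Y.Modules}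
    (a : M ⟶ (pushforward φ).obj N) (ha : IsCart φ a) (W : X.Opens) :
    ∃ aW : (Scheme.Modules.pullback W.ι).obj M ⟶
        (pushforward (φ ∣_ W)).obj ((Scheme.Modules.pullback (φ ⁻¹ᵁ W).ι).obj N),
      IsCart (φ ∣_ W) aW ∧
        comp' (φ ∣_ W) W.ι ((φ ⁻¹ᵁ W).ι ≫ φ) (morphismRestrict_ι φ W)
            (coadj W.ι (𝟙 ((Scheme.Modules.pullback W.ι).obj M))) aW =
          comp' (φ ⁻¹ᵁ W).ι φ ((φ ⁻¹ᵁ W).ι ≫ φ) rfl a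
            (coadj (φ ⁻¹ᵁ W).ι (𝟙 ((Scheme.Modules.pullback (φ ⁻¹ᵁ W).ι).obj N))) := by
  have hcM : IsCart W.ι (coadj W.ι (𝟙 ((Scheme.Modules.pullback W.ι).obj M))) :=
    isCart_coadj W.ι _
  have hcN : IsCart (φ ⁻¹ᵁ W).ι
      (coadj (φ ⁻¹ᵁ W).ι (𝟙 ((Scheme.Modules.pullback (φ ⁻¹ᵁ W).ι).obj N))) :=
    isCart_coadj (φ ⁻¹ᵁ W).ι _
  have hc : IsCart ((φ ⁻¹ᵁ W).ι ≫ φ) (comp' (φ ⁻¹ᵁ W).ι φ ((φ ⁻¹ᵁ W).ι ≫ φ) rfl a
      (coadj (φ ⁻¹ᵁ W).ι (𝟙 ((Scheme.Modules.pullback (φ ⁻¹ᵁ W).ι).obj N)))) :=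
    IsCart.comp rfl ha hcN
  obtain ⟨aW, haW, -⟩ := IsCart.existsUnique_lift (morphismRestrict_ι φ W) hcM
    (comp' (φ ⁻¹ᵁ W).ι φ ((φ ⁻¹ᵁ W).ι ≫ φ) rfl a
      (coadj (φ ⁻¹ᵁ W).ι (𝟙 ((Scheme.Modules.pullback (φ ⁻¹ᵁ W).ι).obj N))))
  refine ⟨aW, IsCart.of_comp (morphismRestrict_ι φ W) hcM ?_, haW⟩
  rw [haW]
  exact hc

end Fermat.Agent.S26.M

end
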