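/-
S26 / block M (architect helper99) : global generators (R0, R1).
Toolkit (FROZEN, no byte change): Fermat/Agent/S25/Mod/{LocHom,Basic,Gen,Defs,Cart,CartOpen,LocIso,UnitCart,Triv,Inv}.lean.
-/
import Fermat.Agent.S26.M.Gen.Basic

set_option autoImplicit false

universe u

open CategoryTheory AlgebraicGeometry AlgebraicGeometry.Scheme.Modules TopologicalSpace
  Fermat.Agent.S25.Mod

noncomputable section

namespace Fermat.Agent.S26.M

variable {X Y : Scheme.{u}}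

/-- **R0.** a global generator trivialises the module.
(`Triv.ofSection M m : OO X ⟶ M`, `Triv.ofSection_app`; `Scheme.Modules.Hom.isIso_iff_isIso_app`,
`ConcreteCategory.isIso_iff_bijective`; bijectivity on `W` is `hm W le_top`.) -/
theorem exists_iso_of_isGen_top {M : X.Modules} {m : Γ(M, ⊤)} (hm : IsGen M m) :
    ∃ e : OO X ≅ M, e.hom.app ⊤ (ofFn (1 : Γ(X, ⊤))) = m := by
  have hiso : IsIso (Triv.ofSection M m) := by
    rw [Scheme.Modules.Hom.isIso_iff_isIso_app]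
    intro W
    rw [ConcreteCategory.isIso_iff_bijective]
    constructor
    · intro a b hab
      obtain ⟨c, -, hc⟩ := hm W le_top ((Triv.ofSection M m).app W a)
      have ha : (a : Γ(X, W)) = c := hc a (Triv.ofSection_app M m W a)
      have hb : (b : Γ(X, W)) = c := hc b (by rw [hab]; exact Triv.ofSection_app M m W b)
      exact ha.trans hb.symm
    · intro y
      obtain ⟨c, hc, -⟩ := hm W le_top y
      exact ⟨c, (Triv.ofSection_app M m W c).trans hc.symm⟩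
  refine ⟨asIso (Triv.ofSection M m), ?_⟩
  show (Triv.ofSection M m).app ⊤ (1 : Γ(X, ⊤)) = m
  rw [Triv.ofSection_app_top, one_smul]

/-- **R1.** global generators pull back along cartesian maps.
(`e` from R0; `ha.precomp_iso e.hom` and `isCart_unitMap φ` are cartesian with source `OO X`:
`IsCart.exists_iso` gives `e' : OO Y ≅ N` with `unitMap φ ≫ (pushforward φ).map e'.hom = e.hom ≫ a`;
evaluate at `1` over `⊤`; `(isGen_one ⊤).map_locIso (LocIso.ofIso e' ⊤) le_rfl`.) -/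
theorem isGen_pull_top (φ : Y ⟶ X) {M : X.Modules} {N : Y.Modules}
    (a : M ⟶ (pushforward φ).obj N) (ha : IsCart φ a) {m : Γ(M, ⊤)} (hm : IsGen M m) :
    IsGen N (toPre φ N (a.app ⊤ m)) := by
  obtain ⟨e, he⟩ := exists_iso_of_isGen_top hm
  obtain ⟨e', he'⟩ := (isCart_unitMap φ).exists_iso (ha.precomp_iso e.hom)
  have h1 := (isGen_one (X := Y) (φ ⁻¹ᵁ ⊤)).map_locIso (LocIso.ofIso e' ⊤) le_top
  have h2 : (LocIso.ofIso e' ⊤).hom.app (φ ⁻¹ᵁ ⊤) le_top (ofFn (1 : Γ(Y, φ ⁻¹ᵁ ⊤))) =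
      toPre φ N (a.app ⊤ m) := by
    have h3 := congrArg (fun f => f.app ⊤ (ofFn (1 : Γ(X, ⊤)))) he'
    simp only at h3
    rw [← he]
    have h4 : (unitMap φ).app ⊤ (ofFn (1 : Γ(X, ⊤))) =
        ofPre φ (OO Y) (ofFn (1 : Γ(Y, φ ⁻¹ᵁ ⊤))) := by
      show φ.app ⊤ (1 : Γ(X, ⊤)) = (1 : Γ(Y, φ ⁻¹ᵁ ⊤))
      exact map_one _
    show e'.hom.app (φ ⁻¹ᵁ ⊤) (ofFn (1 : Γ(Y, φ ⁻¹ᵁ ⊤))) = _
    have h5 : (unitMap φ ≫ (pushforward φ).map e'.hom).app ⊤ (ofFn (1 : Γ(X, ⊤))) =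
        ofPre φ N (e'.hom.app (φ ⁻¹ᵁ ⊤) (ofFn (1 : Γ(Y, φ ⁻¹ᵁ ⊤)))) := by
      show ((pushforward φ).map e'.hom).app ⊤ ((unitMap φ).app ⊤ (ofFn (1 : Γ(X, ⊤)))) = _
      rw [h4]
      rfl
    rw [h5] at h3
    exact h3
  rw [← h2]
  exact h1

end Fermat.Agent.S26.M

end
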