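/-
S26 / block M (architect helper99) : generators pull back along cartesian maps (R4, R5).
Toolkit (FROZEN, no byte change): Fermat/Agent/S25/Mod/{LocHom,Basic,Gen,Defs,Cart,CartOpen,LocIso,UnitCart,Triv,Inv}.lean.
-/
import Fermat.Agent.S26.M.Gen.Top
import Fermat.Agent.S26.M.Gen.Open
import Fermat.Agent.S26.M.Gen.Restrict

set_option autoImplicit false

universe u

open CategoryTheory AlgebraicGeometry AlgebraicGeometry.Scheme.Modules TopologicalSpace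
  Fermat.Agent.S25.Mod

noncomputable section

namespace Fermat.Agent.S26.M

variable {X Y : Scheme.{u}}

/-- bookkeeping: two sections which agree on a common (full) open -/
theorem Pull_isGen_of_map_eq {Z : Scheme.{u}} {P : Z.Modules} {U₀ U₁ U₂ U₃ : Z.Opens}
    (s₁ : Γ(P, U₁)) (s₂ : Γ(P, U₂)) (i₁ : U₃ ⟶ U₁) (i₂ : U₃ ⟶ U₂)
    (h : P.presheaf.map i₁.op s₁ = P.presheaf.map i₂.op s₂) (h₀ : U₀ ≤ U₁)
    (hg : IsGen P (res P h₀ s₁)) (h₃₀ : U₃ ≤ U₀) (h₂₃ : U₂ ≤ U₃) : IsGen P s₂ := by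
  refine isGen_of_res (leOfHom i₂) h₂₃ ?_
  have e₂ : res P (leOfHom i₂) s₂ = P.presheaf.map i₂.op s₂ := rfl
  have e₁ : P.presheaf.map i₁.op s₁ = res P h₃₀ (res P h₀ s₁) := by
    rw [res_res]
    rfl
  rw [e₂, ← h, e₁]
  exact hg.res h₃₀

/-- **R4 = GenPull.** generators pull back along cartesian maps.
(`exists_restrict_cart`; R3 (→) for `W.ι`, `c_M`: `m_W := toPre (c_M.app W m)` generates `M_W` on
`W.ι ⁻¹ᵁ W = ⊤`; restrict to `⊤`, R1 for `a_W`; evaluate the equality of the two `comp'` at `m` over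
`W` (`comp'_app`); `isGen_of_res`; R3 (←) for `(φ ⁻¹ᵁ W).ι`, `c_N`.) -/
theorem isGen_pull (φ : Y ⟶ X) {M : X.Modules} {N : Y.Modules}
    (a : M ⟶ (pushforward φ).obj N) (ha : IsCart φ a) {W : X.Opens} {m : Γ(M, W)}
    (hm : IsGen M m) : IsGen N (toPre φ N (a.app W m)) := by
  obtain ⟨aW, haW, heq⟩ := exists_restrict_cart φ a ha W
  have hWr : W ≤ W.ι.opensRange := by rw [Scheme.Opens.opensRange_ι]
  have hVr : φ ⁻¹ᵁ W ≤ (φ ⁻¹ᵁ W).ι.opensRange := by rw [Scheme.Opens.opensRange_ι]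
  have h1 := (isGen_iff_of_isOpenImmersion W.ι
    (coadj W.ι (𝟙 ((Scheme.Modules.pullback W.ι).obj M))) (isCart_coadj _ _) hWr m).1 hm
  have htop : (⊤ : W.toScheme.Opens) ≤ W.ι ⁻¹ᵁ W := by
    rw [Scheme.Opens.ι_preimage_self]
  have h2 := h1.res htop
  have h3 := isGen_pull_top (φ ∣_ W) aW haW h2
  rw [isGen_iff_of_isOpenImmersion (φ ⁻¹ᵁ W).ι
    (coadj (φ ⁻¹ᵁ W).ι (𝟙 ((Scheme.Modules.pullback (φ ⁻¹ᵁ W).ι).obj N))) (isCart_coadj _ _) hVr]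
  have key := congrArg (fun t => t.app W m) heq
  simp only [comp'_app] at key
  have hnat := LocIso.app_map_apply aW (homOfLE htop)
    (toPre W.ι ((Scheme.Modules.pullback W.ι).obj M)
      ((coadj W.ι (𝟙 ((Scheme.Modules.pullback W.ι).obj M))).app W m))
  refine Pull_isGen_of_map_eq (U₀ := (φ ∣_ W) ⁻¹ᵁ ⊤) (U₁ := (φ ∣_ W) ⁻¹ᵁ (W.ι ⁻¹ᵁ W))
    (U₃ := ((φ ⁻¹ᵁ W).ι ≫ φ) ⁻¹ᵁ W)
    (toPre (φ ∣_ W) ((Scheme.Modules.pullback (φ ⁻¹ᵁ W).ι).obj N)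
      (aW.app (W.ι ⁻¹ᵁ W) (toPre W.ι ((Scheme.Modules.pullback W.ι).obj M)
      ((coadj W.ι (𝟙 ((Scheme.Modules.pullback W.ι).obj M))).app W m)))) _ _ _ key
    ((φ ∣_ W).preimage_mono htop) ?_ ?_ ?_
  · rw [← toPre_res _ _ htop]
    have hnat' : res _ htop (aW.app (W.ι ⁻¹ᵁ W) (toPre W.ι ((Scheme.Modules.pullback W.ι).obj M)
        ((coadj W.ι (𝟙 ((Scheme.Modules.pullback W.ι).obj M))).app W m))) = _ := hnat.symm
    rw [hnat']
    exact h3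
  · intro x _
    trivial
  · exact le_rfl

/-- **R5.** a module with local generators is invertible.
(R3 (→) for `W.ι` and `coadj W.ι (𝟙 _)`, restrict to `⊤`, R0.) -/
theorem isInvertible_of_isGen {M : X.Modules}
    (h : ∀ x : X, ∃ (W : X.Opens) (m : Γ(M, W)), x ∈ W ∧ IsGen M m) :
    Scheme.Modules.IsInvertible M := by
  refine ⟨fun x => ?_⟩
  obtain ⟨W, m, hx, hm⟩ := h x
  have hWr : W ≤ W.ι.opensRange := by rw [Scheme.Opens.opensRange_ι]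
  have h1 := (isGen_iff_of_isOpenImmersion W.ι
    (coadj W.ι (𝟙 ((Scheme.Modules.pullback W.ι).obj M))) (isCart_coadj _ _) hWr m).1 hm
  have htop : (⊤ : W.toScheme.Opens) ≤ W.ι ⁻¹ᵁ W := by
    rw [Scheme.Opens.ι_preimage_self]
  obtain ⟨e, -⟩ := exists_iso_of_isGen_top (h1.res htop)
  exact ⟨W, hx, ⟨e.symm⟩⟩

end Fermat.Agent.S26.M

end
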